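import Fermat.Agent.S28.TowerDefs
import Fermat.Agent.S28.ModEq.Conj
import Fermat.Agent.S28.Char0Bridge

/-!
# The Kronecker congruence `Φ_p(X, Y) ≡ (X^p − Y)(X − Y^p) mod p`

Derived from the exported integral modular equation alone (`TD.ModEq p` / `ModEq.ModEqData p`):
modulo `p` one has `J(q^p) = J(q)^p`, so the two relations `Φ(J, J_p) = 0 = Φ(J_p, J)` say that
`Φ̄(T, T^p) = 0 = Φ̄(T^p, T)` for a transcendental `T`; hence `X^p − Y` and `X − Y^p` divide
`Φ̄`, and a degree count finishes.

Conventions: `Φ : ℤ[Y][X]`, outer variable `X = Polynomial.X`, inner variable `Y = C X`.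
-/

set_option autoImplicit false

noncomputable section

namespace Fermat.Agent.Lib.ModEq

open ModularCurve Polynomial Fermat.Agent.S28

open scoped Polynomial.Bivariate

/-! ### Frobenius on Laurent series over `ZMod p` -/

/-- `g(q)^p = g(q^p)` for power series over `ZMod p`. -/
theorem powerSeries_pow_char (p : ℕ) [Fact p.Prime] (g : PowerSeries (ZMod p)) :
    g ^ p = PowerSeries.mk fun n => if p ∣ n then PowerSeries.coeff (n / p) g else 0 := by
  have hp0 : p ≠ 0 := (Fact.out : p.Prime).ne_zero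
  have h := MvPowerSeries.map_frobenius_expand (σ := Unit) (R := ZMod p) p hp0 (f := g)
  rw [ZMod.frobenius_zmod, MvPowerSeries.map_id] at h
  rw [← h]
  ext n
  rw [PowerSeries.coeff_mk]
  exact PowerSeries.coeff_expand p hp0 g

/-- `f(q)^p = f(q^p)` for Laurent series over `ZMod p`. -/
theorem qExpand_eq_pow (p : ℕ) [Fact p.Prime] [NeZero p] (f : LaurentSeries (ZMod p)) :
    qExpand (ZMod p) p f = f ^ p := by
  conv_lhs => rw [← LaurentSeries.single_order_mul_powerSeriesPart f]
  conv_rhs => rw [← LaurentSeries.single_order_mul_powerSeriesPart f]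
  rw [map_mul, mul_pow, qExpand_single, HahnSeries.single_pow, one_pow, ← map_pow,
    powerSeries_pow_char]
  rw [← ModEq.ofPowerSeries_V (A := ZMod p) p f.powerSeriesPart, nsmul_eq_mul]

/-- `J(q^p) = J(q)^p` over `ZMod p`. -/
theorem Jd_eq_pow (p : ℕ) [Fact p.Prime] : TD.Jd (ZMod p) p = jqModC (ZMod p) ^ p := by
  have : NeZero p := ⟨(Fact.out : p.Prime).ne_zero⟩
  rw [TD.Jd_eq (ZMod p) p]
  exact qExpand_eq_pow p _

/-! ### Bivariate evaluation -/

section Eval

variable {F L : Type*} [Field F] [CommRing L] [Algebra F L]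

/-- `Φ(x, y)` computed through `TD.polyAt` equals the bivariate evaluation of the reduction of
`Φ` to `F`. -/
theorem eval_polyAt_eq_aevalAeval (Φ : Polynomial (Polynomial ℤ)) (x y : L) :
    (TD.polyAt Φ y).eval x =
      aevalAeval (R := F) y x (Φ.map (Polynomial.mapRingHom (Int.castRingHom F))) := by
  have key : (Polynomial.evalRingHom x).comp
      (Polynomial.mapRingHom (Polynomial.eval₂RingHom (Int.castRingHom L) y)) =
      ((aevalAeval (R := F) y x : F[X][Y] →ₐ[F] L) : F[X][Y] →+* L).comp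
        (Polynomial.mapRingHom (Polynomial.mapRingHom (Int.castRingHom F))) := by
    have inner : ((Polynomial.evalRingHom x).comp
        (Polynomial.mapRingHom (Polynomial.eval₂RingHom (Int.castRingHom L) y))).comp
          Polynomial.C =
        (((aevalAeval (R := F) y x : F[X][Y] →ₐ[F] L) : F[X][Y] →+* L).comp
          (Polynomial.mapRingHom (Polynomial.mapRingHom (Int.castRingHom F)))).comp
            Polynomial.C := by
      refine Polynomial.ringHom_ext (fun n => ?_) ?_
      · simp
      · simp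
    refine Polynomial.ringHom_ext (fun a => RingHom.congr_fun inner a) ?_
    simp
  exact congrArg (fun g : Polynomial (Polynomial ℤ) →+* L => g Φ) key

/-- Evaluating the outer variable at a polynomial in the inner one. -/
theorem aevalAeval_aeval (y : L) (a : F[X]) (P : F[X][Y]) :
    aevalAeval (R := F) y (Polynomial.aeval y a) P = Polynomial.aeval y (P.eval a) := by
  have key : ((aevalAeval (R := F) y (Polynomial.aeval y a) : F[X][Y] →ₐ[F] L) :
        F[X][Y] →+* L) =
      ((Polynomial.aeval y : F[X] →ₐ[F] L) : F[X] →+* L).comp (Polynomial.evalRingHom a) := by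
    have inner : ((aevalAeval (R := F) y (Polynomial.aeval y a) : F[X][Y] →ₐ[F] L) :
          F[X][Y] →+* L).comp Polynomial.C =
        (((Polynomial.aeval y : F[X] →ₐ[F] L) : F[X] →+* L).comp
          (Polynomial.evalRingHom a)).comp Polynomial.C := by
      refine Polynomial.ringHom_ext (fun c => ?_) ?_
      · simp
      · simp
    refine Polynomial.ringHom_ext (fun b => RingHom.congr_fun inner b) ?_
    simp
  exact congrArg (fun g : F[X][Y] →+* L => g P) key

end Eval

/-! ### The congruence -/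

/-- **Kronecker congruence** over `ZMod p`. -/
theorem kronecker_zmod {p : ℕ} (hp : p.Prime) (D : TD.ModEq p) :
    D.Φ.map (Polynomial.mapRingHom (Int.castRingHom (ZMod p))) =
      ((X : (ZMod p)[X][Y]) ^ p - C X) * (X - C (X ^ p)) := by
  have : Fact p.Prime := ⟨hp⟩
  have : NeZero p := ⟨hp.ne_zero⟩
  set Φb : (ZMod p)[X][Y] := D.Φ.map (Polynomial.mapRingHom (Int.castRingHom (ZMod p))) with hΦb
  set J : LaurentSeries (ZMod p) := jqModC (ZMod p) with hJdef
  have hJ : ModEq.IsLead J (-((1 : ℕ) : ℤ)) 1 := by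
    simpa using ModEq.isLead_jqModC (A := ZMod p)
  -- `aeval J` is injective
  have hinj : Function.Injective (Polynomial.aeval (R := ZMod p) J) := by
    intro P Q hPQ
    have e : ∀ P : (ZMod p)[X], Polynomial.aeval J P = ModEq.evalAt (RingHom.id (ZMod p)) J P := by
      intro P
      rw [Polynomial.aeval_def, ModEq.evalAt, Polynomial.coe_eval₂RingHom]
      congr 1
      ext c : 1
      rw [algebraMap_laurentSeries_eq_single]
      rfl
    rw [e, e] at hPQ
    exact ModEq.evalAt_injective one_pos hJ (RingHom.id (ZMod p)) Function.injective_id hPQ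
  -- Frobenius: `J(q^p) = J^p`
  have hJp : TD.Jd (ZMod p) p = Polynomial.aeval J (X ^ p : (ZMod p)[X]) := by
    rw [TD.Jd_eq (ZMod p) p, map_pow, Polynomial.aeval_X]
    exact qExpand_eq_pow p J
  have hJ1 : TD.Jd (ZMod p) 1 = J := TD.Jd_one (ZMod p)
  -- `Φ̄(Y^p, Y) = 0`
  have h2 : Φb.eval (X ^ p) = 0 := by
    have h := D.rel₂' hp.ne_zero (ZMod p) 1 one_ne_zero
    rw [one_mul, hJ1, hJp, eval_polyAt_eq_aevalAeval (F := ZMod p), aevalAeval_aeval] at h
    exact hinj (by rw [h, map_zero])
  -- `Φ̄(T, T^p) = 0`, i.e. `(swap Φ̄)(Y^p, Y) = 0`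
  have h1 : (Bivariate.swap Φb).eval (X ^ p) = 0 := by
    have h := D.rel₁' hp.ne_zero (ZMod p) 1 one_ne_zero
    rw [one_mul, hJ1, hJp, eval_polyAt_eq_aevalAeval (F := ZMod p),
      ← Bivariate.aevalAeval_swap, aevalAeval_aeval] at h
    exact hinj (by rw [h, map_zero])
  -- divisibilities
  have hd2 : (X - C (X ^ p) : (ZMod p)[X][Y]) ∣ Φb := Polynomial.dvd_iff_isRoot.mpr h2
  have hd1 : ((X : (ZMod p)[X][Y]) ^ p - C X) ∣ Φb := by
    have h := Polynomial.dvd_iff_isRoot.mpr h1
    have h' := map_dvd (Bivariate.swap (R := ZMod p)) h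
    rw [Bivariate.swap_swap_apply, map_sub, Bivariate.swap_Y, map_pow] at h'
    have hs : Bivariate.swap (R := ZMod p) (C (X ^ p)) = X ^ p := by
      rw [C_pow, map_pow, Bivariate.swap_X]
    rw [← C_pow, hs] at h'
    have : ((X : (ZMod p)[X][Y]) ^ p - C X) = -(C X - X ^ p) := by ring
    rw [this]
    exact (neg_dvd).mpr h'
  obtain ⟨H, hH⟩ := hd1
  -- `X − Y^p` is prime and does not divide `X^p − Y`
  have hprime : Prime (X - C (X ^ p) : (ZMod p)[X][Y]) := Polynomial.prime_X_sub_C _
  have hnd : ¬ (X - C (X ^ p) : (ZMod p)[X][Y]) ∣ ((X : (ZMod p)[X][Y]) ^ p - C X) := by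
    rw [Polynomial.dvd_iff_isRoot, Polynomial.IsRoot.def, Polynomial.eval_sub,
      Polynomial.eval_pow, Polynomial.eval_X, Polynomial.eval_C, ← pow_mul]
    exact FiniteField.X_pow_card_sub_X_ne_zero (ZMod p)
      (Nat.one_lt_mul_iff.mpr ⟨hp.pos, hp.pos, Or.inl hp.one_lt⟩)
  obtain ⟨H', rfl⟩ : (X - C (X ^ p) : (ZMod p)[X][Y]) ∣ H := by
    rw [hH] at hd2
    exact (hprime.dvd_or_dvd hd2).resolve_left hnd
  -- degree count
  have hM1 : ((X : (ZMod p)[X][Y]) ^ p - C X).Monic := Polynomial.monic_X_pow_sub_C _ hp.ne_zero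
  have hM2 : (X - C (X ^ p) : (ZMod p)[X][Y]).Monic := Polynomial.monic_X_sub_C _
  have hM : (((X : (ZMod p)[X][Y]) ^ p - C X) * (X - C (X ^ p))).Monic := hM1.mul hM2
  have hMdeg : (((X : (ZMod p)[X][Y]) ^ p - C X) * (X - C (X ^ p))).natDegree = p + 1 := by
    rw [hM1.natDegree_mul hM2, Polynomial.natDegree_X_pow_sub_C, Polynomial.natDegree_X_sub_C]
  have hΦmonic : Φb.Monic := D.monic.map _
  have hΦdeg : Φb.natDegree = p + 1 := by
    rw [hΦb, D.monic.natDegree_map, D.natDegree_eq]
  have hfac : Φb = ((X : (ZMod p)[X][Y]) ^ p - C X) * (X - C (X ^ p)) * H' := by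
    rw [hH, mul_assoc]
  have hH'monic : H'.Monic := by
    have := hΦmonic
    rw [hfac] at this
    exact hM.of_mul_monic_left this
  have hH'deg : H'.natDegree = 0 := by
    have h := hΦdeg
    rw [hfac, hM.natDegree_mul hH'monic, hMdeg] at h
    omega
  rw [hfac, Polynomial.eq_one_of_monic_natDegree_zero hH'monic hH'deg, mul_one]

/-- **Kronecker congruence** over any commutative ring of characteristic `p`. -/
theorem kronecker {p : ℕ} (hp : p.Prime) (D : TD.ModEq p) (K : Type*) [CommRing K] [CharP K p] :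
    D.Φ.map (Polynomial.mapRingHom (Int.castRingHom K)) =
      ((X : K[X][Y]) ^ p - C X) * (X - C (X ^ p)) := by
  have h := congrArg (Polynomial.map (Polynomial.mapRingHom (ZMod.castHom (dvd_refl p) K)))
    (kronecker_zmod hp D)
  rw [Polynomial.map_map, Polynomial.mapRingHom_comp,
    RingHom.ext_int ((ZMod.castHom (dvd_refl p) K).comp (Int.castRingHom (ZMod p)))
      (Int.castRingHom K)] at h
  rw [h]
  simp

/-- The Kronecker congruence for the exported `ModEq.ModEqData`. -/
theorem kronecker_of_modEqData {p : ℕ} [NeZero p] (hp : p.Prime) (D : ModEq.ModEqData p)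
    (K : Type*) [CommRing K] [CharP K p] :
    D.Φ.map (Polynomial.mapRingHom (Int.castRingHom K)) =
      ((X : K[X][Y]) ^ p - C X) * (X - C (X ^ p)) := by
  have h := kronecker hp (Char0Bridge.modEqDataToTD D) K
  rwa [Char0Bridge.modEqDataToTD_Φ] at h

end Fermat.Agent.Lib.ModEq
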